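import Fermat.Agent.S20.Comb694.OrbitCounts
import Fermat.Agent.S20.CuspCount360
import Fermat.Agent.S20.Interface

/-!
# Package COMB of the S20 interface, and the orbit counts in `Equiv.Perm` form

* `combStatement : COMBStatement N` (for `N ≠ 0`), the finite-combinatorics package of
  `Fermat/Agent/S20/Interface.lean`.
* `genusFormula_eq_orbit_counts` : the unconditional Euler-characteristic identity.
* `orbitRel_zpowers_toPerm`, `card_orbits_toPerm` : orbits of the cyclic group generated by the
  permutation `MulAction.toPerm g` are the orbits of `zpowers g`.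
-/

set_option autoImplicit false

namespace Fermat.Agent.S20.Comb694

open Matrix MatrixGroups CongruenceSubgroup MulAction Subgroup

/-- **(I4)**, re-exported from `CuspCount360`. -/
theorem card_orbits_T (N : ℕ) [NeZero N] :
    Nat.card (orbitRel.Quotient (zpowers ModularGroup.T) (SL(2, ℤ) ⧸ Gamma0 N))
      = ModularCurve.cuspCount N :=
  Fermat.Agent.S20.CuspCount360.card_orbits_T N

/-- **Package COMB** of the S20 interface. -/
theorem combStatement (N : ℕ) [NeZero N] : Fermat.Agent.S20.COMBStatement N := by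
  refine ⟨card_quotient_Gamma0 N, ?_, ?_, card_orbits_T N⟩
  · have h := two_mul_card_orbits_S N
    rw [← card_quotient_Gamma0 N] at h
    exact h
  · have h := three_mul_card_orbits_ST N
    rw [← card_quotient_Gamma0 N] at h
    exact h

/-- The Euler-characteristic identity, unconditional: with `μ = #Q`, `o₂`, `o₃`, `o∞` the numbers
of orbits of `S`, `S * T`, `T` on `Q = SL(2,ℤ) ⧸ Γ₀(N)`:
`genusFormula N = 1 + (μ - o₂ - o₃ - o∞) / 2`. -/
theorem genusFormula_eq_orbit_counts (N : ℕ) [NeZero N] :
    ModularCurve.genusFormula N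
      = 1 + ((Nat.card (SL(2, ℤ) ⧸ Gamma0 N) : ℚ)
          - (Nat.card (orbitRel.Quotient (zpowers ModularGroup.S) (SL(2, ℤ) ⧸ Gamma0 N)) : ℚ)
          - (Nat.card (orbitRel.Quotient (zpowers (ModularGroup.S * ModularGroup.T))
              (SL(2, ℤ) ⧸ Gamma0 N)) : ℚ)
          - (Nat.card (orbitRel.Quotient (zpowers ModularGroup.T)
              (SL(2, ℤ) ⧸ Gamma0 N)) : ℚ)) / 2 :=
  genusFormula_eq_of_card_orbits_T N (card_orbits_T N)

/-- `2 * genusFormula N + o(S) + o(S * T) + o(T) = μ + 2`, unconditional. -/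
theorem two_mul_genusFormula_add_orbit_counts (N : ℕ) [NeZero N] :
    2 * ModularCurve.genusFormula N
      + (Nat.card (orbitRel.Quotient (zpowers ModularGroup.S) (SL(2, ℤ) ⧸ Gamma0 N)) : ℚ)
      + (Nat.card (orbitRel.Quotient (zpowers (ModularGroup.S * ModularGroup.T))
          (SL(2, ℤ) ⧸ Gamma0 N)) : ℚ)
      + (Nat.card (orbitRel.Quotient (zpowers ModularGroup.T) (SL(2, ℤ) ⧸ Gamma0 N)) : ℚ)
      = (Nat.card (SL(2, ℤ) ⧸ Gamma0 N) : ℚ) + 2 :=
  two_mul_genusFormula_of_card_orbits_T N (card_orbits_T N)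

section toPerm

variable {G X : Type*} [Group G] [MulAction G X]

lemma toPerm_zpow_apply (g : G) (k : ℤ) (x : X) :
    ((MulAction.toPerm g : Equiv.Perm X) ^ k) x = g ^ k • x := by
  have h : (MulAction.toPerm g : Equiv.Perm X) ^ k = MulAction.toPerm (g ^ k) :=
    (map_zpow (MulAction.toPermHom G X) g k).symm
  rw [h]
  rfl

/-- The orbits of the cyclic group generated by the permutation `toPerm g` are the orbits of
`zpowers g`. -/
lemma orbitRel_zpowers_toPerm (g : G) :
    MulAction.orbitRel (zpowers (MulAction.toPerm g : Equiv.Perm X)) X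
      = MulAction.orbitRel (zpowers g) X := by
  ext x y
  simp only [MulAction.orbitRel_apply, MulAction.mem_orbit_iff]
  constructor
  · rintro ⟨⟨π, hπ⟩, rfl⟩
    obtain ⟨k, rfl⟩ := Subgroup.mem_zpowers_iff.mp hπ
    refine ⟨⟨g ^ k, zpow_mem_zpowers g k⟩, ?_⟩
    exact (toPerm_zpow_apply g k y).symm
  · rintro ⟨⟨h, hh⟩, rfl⟩
    obtain ⟨k, rfl⟩ := Subgroup.mem_zpowers_iff.mp hh
    refine ⟨⟨(MulAction.toPerm g : Equiv.Perm X) ^ k, zpow_mem_zpowers _ k⟩, ?_⟩
    exact toPerm_zpow_apply g k y

/-- Orbit counts in `Equiv.Perm` form agree with orbit counts of `zpowers g`. -/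
theorem card_orbits_toPerm (g : G) :
    Nat.card (orbitRel.Quotient (zpowers (MulAction.toPerm g : Equiv.Perm X)) X)
      = Nat.card (orbitRel.Quotient (zpowers g) X) := by
  unfold orbitRel.Quotient
  rw [orbitRel_zpowers_toPerm]

end toPerm

end Fermat.Agent.S20.Comb694
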